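import Mathlib

/-!
# S24 / MOD / D5: level one modular forms of weight `12 M` are `Δ^M · P(J)`, and
`SL(2,ℤ)`-invariant holomorphic functions with a finite order pole at `i∞` are polynomials in `J`.

Mathlib only.  `J τ = E₄ τ ^ 3 / Δ τ`.
-/

set_option autoImplicit false

noncomputable section

open UpperHalfPlane ModularForm SlashInvariantForm SlashInvariantFormClass ModularFormClass
  CuspFormClass MatrixGroups OnePoint Filter EisensteinSeries Asymptotics

open scoped Topology Manifold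

namespace Fermat.Agent.S24.H864

local notation "Δ" => ModularForm.discriminant

/-- The `j`-function `E₄³/Δ` as a plain function on the upper half plane. -/
def jFn (τ : ℍ) : ℂ := E₄ τ ^ 3 / Δ τ

theorem jFn_def (τ : ℍ) : jFn τ = E₄ τ ^ 3 / Δ τ := rfl

/-- **Level one structure theorem (weights `12 M`).**  Every modular form of level one and
weight `12 M` is `Δ^M · P(J)` for a polynomial `P` of degree `≤ M`. -/
theorem levelOne_eq_discriminant_pow_mul_poly (M : ℕ) :
    ∀ (k : ℤ) (_ : k = 12 * (M : ℤ)) (g : ModularForm 𝒮ℒ k),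
      ∃ P : Polynomial ℂ, P.natDegree ≤ M ∧ ∀ τ : ℍ, g τ = Δ τ ^ M * P.eval (jFn τ) := by
  induction M with
  | zero =>
    intro k hk g
    have hk0 : k = 0 := by simpa using hk
    subst hk0
    obtain ⟨c, hc⟩ := levelOne_weight_zero_const g
    refine ⟨Polynomial.C c, by simp, fun τ => ?_⟩
    simp [hc]
  | succ M ih =>
    intro k hk g
    -- the form `E₄^(3(M+1))` of weight `k`
    have hw : ((3 * (M + 1) : ℕ) : ℤ) * 4 = k := by rw [hk]; push_cast; ring
    set e : ModularForm 𝒮ℒ k := ModularForm.mcast hw (E₄.pow (3 * (M + 1))) with he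
    have he_apply : ∀ τ, e τ = E₄ τ ^ (3 * (M + 1)) := fun τ => by
      show (E₄.pow (3 * (M + 1))) τ = _
      rw [ModularForm.coe_pow, Pi.pow_apply]
    set c : ℂ := (qExpansion 1 g).coeff 0 with hc
    set f : ModularForm 𝒮ℒ k := g - c • e with hf
    have hcusp : (qExpansion 1 f).coeff 0 = 0 := by
      rw [hf, FunLike.coe_sub, ModularForm.qExpansion_sub one_pos one_mem_strictPeriods_SL,
        FunLike.coe_smul, ModularForm.qExpansion_smul one_pos one_mem_strictPeriods_SL, map_sub,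
        PowerSeries.coeff_smul, he, ModularForm.qExpansion_mcast,
        ModularForm.qExpansion_pow one_pos one_mem_strictPeriods_SL]
      have hE0 : PowerSeries.constantCoeff (qExpansion 1 E₄) = 1 := by
        rw [← PowerSeries.coeff_zero_eq_constantCoeff_apply]
        exact E_qExpansion_coeff_zero _ ⟨2, rfl⟩
      simp only [PowerSeries.coeff_zero_eq_constantCoeff, map_pow, hE0, one_pow, smul_eq_mul,
        mul_one]
      rw [hc, PowerSeries.coeff_zero_eq_constantCoeff_apply, sub_self]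
    set h : ModularForm 𝒮ℒ (k - 12) := CuspForm.discriminantEquiv (toCuspForm f hcusp)
      with hh
    obtain ⟨P, hP, hPe⟩ := ih (k - 12) (by rw [hk]; push_cast; ring) h
    refine ⟨Polynomial.C c * Polynomial.X ^ (M + 1) + P, ?_, fun τ => ?_⟩
    · refine (Polynomial.natDegree_add_le _ _).trans (max_le ?_ (hP.trans (Nat.le_succ M)))
      exact (Polynomial.natDegree_C_mul_le _ _).trans (Polynomial.natDegree_X_pow_le _)
    · have hΔ : Δ τ ≠ 0 := discriminant_ne_zero τ
      have h1 : Δ τ * h τ = g τ - c * e τ := by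
        rw [hh, discriminant_mul_discriminantEquiv_apply]
        rfl
      have h2 := hPe τ
      rw [he_apply] at h1
      simp only [Polynomial.eval_add, Polynomial.eval_mul, Polynomial.eval_C, Polynomial.eval_pow,
        Polynomial.eval_X]
      rw [h2] at h1
      have hJ : E₄ τ ^ 3 = jFn τ * Δ τ := by
        rw [jFn, div_mul_cancel₀ _ hΔ]
      have h3 : g τ = c * (E₄ τ ^ 3) ^ (M + 1) + Δ τ * (Δ τ ^ M * Polynomial.eval (jFn τ) P) := by
        rw [h1, ← pow_mul]; ring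
      rw [h3, hJ]
      ring

end Fermat.Agent.S24.H864

namespace Fermat.Agent.S24.H864

local notation "Δ" => ModularForm.discriminant

/-- `Δ^M` as a modular form of weight `M * 12`. -/
def deltaPow (M : ℕ) : ModularForm 𝒮ℒ ((M : ℤ) * 12) :=
  (CuspForm.discriminant : ModularForm 𝒮ℒ 12).pow M

theorem deltaPow_apply (M : ℕ) (τ : ℍ) : deltaPow M τ = Δ τ ^ M := by
  show ((CuspForm.discriminant : ModularForm 𝒮ℒ 12).pow M) τ = _
  rw [ModularForm.coe_pow, Pi.pow_apply]
  rfl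

theorem coe_deltaPow (M : ℕ) : ⇑(deltaPow M) = fun τ => Δ τ ^ M :=
  funext (deltaPow_apply M)

theorem slash_zero_of_invariant {f : ℍ → ℂ}
    (hinv : ∀ (γ : SL(2, ℤ)) (τ : ℍ), f (γ • τ) = f τ) (γ : SL(2, ℤ)) :
    f ∣[(0 : ℤ)] γ = f := by
  ext τ
  rw [SL_slash_apply, hinv]
  simp

theorem slash_deltaPow (M : ℕ) (γ : SL(2, ℤ)) :
    ⇑(deltaPow M) ∣[(M : ℤ) * 12] γ = ⇑(deltaPow M) := by
  rw [SL_slash]
  exact SlashInvariantForm.slash_action_eqn (deltaPow M) _ (MonoidHom.mem_range.mpr ⟨γ, rfl⟩)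

theorem slash_mul_deltaPow {f : ℍ → ℂ}
    (hinv : ∀ (γ : SL(2, ℤ)) (τ : ℍ), f (γ • τ) = f τ) (M : ℕ) (γ : SL(2, ℤ)) :
    (f * ⇑(deltaPow M)) ∣[0 + (M : ℤ) * 12] γ = f * ⇑(deltaPow M) := by
  rw [mul_slash_SL2, slash_zero_of_invariant hinv, slash_deltaPow]

/-- A holomorphic `SL(2,ℤ)`-invariant function `f` such that `f · Δ^M` is bounded at `i∞`
gives the level one modular form `f · Δ^M` of weight `12 M`. -/
def invMulDeltaPow (f : ℍ → ℂ) (hf : MDiff f)
    (hinv : ∀ (γ : SL(2, ℤ)) (τ : ℍ), f (γ • τ) = f τ) (M : ℕ)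
    (hbdd : IsBoundedAtImInfty (fun τ => f τ * Δ τ ^ M)) : ModularForm 𝒮ℒ (0 + (M : ℤ) * 12) where
  toFun := f * ⇑(deltaPow M)
  slash_action_eq' := by
    rintro _ ⟨γ, rfl⟩
    exact slash_mul_deltaPow hinv M γ
  holo' := hf.mul (ModularFormClass.holo (deltaPow M))
  bdd_at_cusps' {c} hc := by
    rw [Subgroup.IsArithmetic.isCusp_iff_isCusp_SL2Z] at hc
    rw [isBoundedAt_iff_forall_SL2Z hc]
    intro γ _
    rw [slash_mul_deltaPow hinv M γ, coe_deltaPow]
    exact hbdd

theorem invMulDeltaPow_apply (f : ℍ → ℂ) (hf : MDiff f)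
    (hinv : ∀ (γ : SL(2, ℤ)) (τ : ℍ), f (γ • τ) = f τ) (M : ℕ)
    (hbdd : IsBoundedAtImInfty (fun τ => f τ * Δ τ ^ M)) (τ : ℍ) :
    invMulDeltaPow f hf hinv M hbdd τ = f τ * Δ τ ^ M := by
  show f τ * deltaPow M τ = _
  rw [deltaPow_apply]

/-- **D5.**  An `SL(2,ℤ)`-invariant holomorphic function on `ℍ` with a pole of order `≤ M` at
`i∞` (in the sense that `f · Δ^M` is bounded at `i∞`) is a polynomial of degree `≤ M` in
`J = E₄³/Δ`. -/
theorem exists_polynomial_of_invariant (f : ℍ → ℂ) (hf : MDiff f)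
    (hinv : ∀ (γ : SL(2, ℤ)) (τ : ℍ), f (γ • τ) = f τ) (M : ℕ)
    (hbdd : IsBoundedAtImInfty (fun τ => f τ * Δ τ ^ M)) :
    ∃ P : Polynomial ℂ, P.natDegree ≤ M ∧ ∀ τ : ℍ, f τ = P.eval (jFn τ) := by
  obtain ⟨P, hP, hPe⟩ := levelOne_eq_discriminant_pow_mul_poly M _ (by ring)
    (invMulDeltaPow f hf hinv M hbdd)
  refine ⟨P, hP, fun τ => ?_⟩
  have h := hPe τ
  rw [invMulDeltaPow_apply] at h
  have hΔ : Δ τ ^ M ≠ 0 := pow_ne_zero _ (discriminant_ne_zero τ)
  have : f τ * Δ τ ^ M = P.eval (jFn τ) * Δ τ ^ M := by rw [h]; ring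
  exact mul_right_cancel₀ hΔ this

end Fermat.Agent.S24.H864
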